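import Fermat.Agent.Lib.Cheb.H941.AbsChar

/-!
# CYC piece ABS (helper941): the abstract Dirichlet lemma

`abs941_abstractDirichlet` is, verbatim, `H221.AbstractDirichletStatement` of helper221's
`CycSpec.lean` (unfolded).
-/

namespace Fermat.Agent.Lib.Cheb.H941

open Filter Topology
open scoped Classical

variable {m : ℕ} [NeZero m]

/-- A weight supported on a finite set of primes is summable. -/
theorem abs941_summable_indicator (S : Finset ℕ) (g : Nat.Primes → ℝ) :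
    Summable (fun p : Nat.Primes => if (p : ℕ) ∈ S then g p else 0) := by
  apply summable_of_hasFiniteSupport
  have hfin : {p : Nat.Primes | (p : ℕ) ∈ S}.Finite :=
    Set.Finite.preimage (Set.injOn_of_injective Subtype.val_injective) S.finite_toSet
  refine hfin.subset fun p hp => ?_
  simp only [Function.mem_support, ne_eq, ite_eq_right_iff, not_forall] at hp
  obtain ⟨h, -⟩ := hp
  exact h

theorem abs941_summable_twist (χ : DirichletCharacter ℂ m) {f : Nat.Primes → ℝ}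
    (hf : Summable f) :
    Summable (fun p : Nat.Primes => χ ((p : ℕ) : ZMod m) * ((f p : ℝ) : ℂ)) := by
  refine Summable.of_norm_bounded hf.norm fun p => ?_
  rw [norm_mul, Complex.norm_real]
  exact mul_le_of_le_one_left (norm_nonneg _) (DirichletCharacter.norm_le_one χ _)

/-- Orthogonality of characters, applied to a summable family indexed by the primes. -/
theorem abs941_orth (a : (ZMod m)ˣ) {f : Nat.Primes → ℝ} (hf : Summable f) :
    ∑ χ : DirichletCharacter ℂ m, χ (((a : (ZMod m)ˣ) : ZMod m)⁻¹) *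
        ∑' p : Nat.Primes, χ ((p : ℕ) : ZMod m) * ((f p : ℝ) : ℂ) =
      (m.totient : ℂ) * ((∑' p : Nat.Primes,
        if ((p : ℕ) : ZMod m) = ((a : (ZMod m)ˣ) : ZMod m) then f p else 0 : ℝ) : ℂ) := by
  have h1 : ∀ χ : DirichletCharacter ℂ m, χ (((a : (ZMod m)ˣ) : ZMod m)⁻¹) *
      ∑' p : Nat.Primes, χ ((p : ℕ) : ZMod m) * ((f p : ℝ) : ℂ) =
      ∑' p : Nat.Primes, χ (((a : (ZMod m)ˣ) : ZMod m)⁻¹) *
        (χ ((p : ℕ) : ZMod m) * ((f p : ℝ) : ℂ)) := fun χ => tsum_mul_left.symm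
  rw [Finset.sum_congr rfl fun χ _ => h1 χ]
  rw [← Summable.tsum_finsetSum fun χ _ => (abs941_summable_twist χ hf).mul_left _]
  rw [Complex.ofReal_tsum, ← tsum_mul_left]
  refine tsum_congr fun p => ?_
  have h2 : ∑ χ : DirichletCharacter ℂ m, χ (((a : (ZMod m)ˣ) : ZMod m)⁻¹) *
      (χ ((p : ℕ) : ZMod m) * ((f p : ℝ) : ℂ)) =
      (∑ χ : DirichletCharacter ℂ m, χ (((a : (ZMod m)ˣ) : ZMod m)⁻¹) *
        χ ((p : ℕ) : ZMod m)) * ((f p : ℝ) : ℂ) := by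
    rw [Finset.sum_mul]
    exact Finset.sum_congr rfl fun χ _ => (mul_assoc _ _ _).symm
  rw [h2, DirichletCharacter.sum_char_inv_mul_char_eq ℂ a.isUnit]
  by_cases hp : ((p : ℕ) : ZMod m) = ((a : (ZMod m)ˣ) : ZMod m)
  · rw [if_pos hp.symm, if_pos hp]
  · rw [if_neg (fun h => hp h.symm), if_neg hp]
    simp

/-- The value of the weight at `p` is at most `c p`. -/
theorem abs941_term_le {c : Nat.Primes → ℝ} (hc : ∀ p, 0 ≤ c p) {s : ℝ} (hs : 0 ≤ s)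
    (p : Nat.Primes) : c p * (p : ℝ) ^ (-s) ≤ c p := by
  have h1 : (1 : ℝ) ≤ (p : ℝ) := by exact_mod_cast p.2.one_lt.le
  have h2 : ((p : ℕ) : ℝ) ^ (-s) ≤ 1 := Real.rpow_le_one_of_one_le_of_nonpos h1 (by linarith)
  exact mul_le_of_le_one_right (hc p) h2

theorem abs941_term_nonneg {c : Nat.Primes → ℝ} (hc : ∀ p, 0 ≤ c p) (s : ℝ)
    (p : Nat.Primes) : 0 ≤ c p * (p : ℝ) ^ (-s) :=
  mul_nonneg (hc p) (Real.rpow_nonneg (Nat.cast_nonneg _) _)

/-- For a character trivial on `A`, the twisted sum differs from the plain sum by a bounded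
amount. -/
theorem abs941_twist_sub_le {c : Nat.Primes → ℝ} (hc : ∀ p, 0 ≤ c p) (A : Subgroup (ZMod m)ˣ)
    (B : Finset ℕ)
    (hB : ∀ p : Nat.Primes, (p : ℕ) ∉ B → c p ≠ 0 →
      ∃ u ∈ A, ((u : (ZMod m)ˣ) : ZMod m) = ((p : ℕ) : ZMod m))
    {χ : DirichletCharacter ℂ m} (hχ : ∀ u ∈ A, χ ((u : (ZMod m)ˣ) : ZMod m) = 1)
    {s : ℝ} (hs : 0 ≤ s) (hsum : Summable (fun p : Nat.Primes => c p * (p : ℝ) ^ (-s))) :
    ‖(∑' p : Nat.Primes, χ ((p : ℕ) : ZMod m) * ((c p * (p : ℝ) ^ (-s) : ℝ) : ℂ)) -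
        ((∑' p : Nat.Primes, c p * (p : ℝ) ^ (-s) : ℝ) : ℂ)‖ ≤
      ∑' p : Nat.Primes, if (p : ℕ) ∈ B then 2 * c p else 0 := by
  rw [Complex.ofReal_tsum, ← (abs941_summable_twist χ hsum).tsum_sub
    (Complex.summable_ofReal.mpr hsum)]
  refine tsum_of_norm_bounded (abs941_summable_indicator B fun p => 2 * c p).hasSum fun p => ?_
  by_cases hp : (p : ℕ) ∈ B
  · rw [if_pos hp]
    have h1 : ‖χ ((p : ℕ) : ZMod m) * ((c p * (p : ℝ) ^ (-s) : ℝ) : ℂ)‖ ≤ c p := by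
      rw [norm_mul, Complex.norm_real, Real.norm_of_nonneg (abs941_term_nonneg hc s p)]
      calc ‖χ ((p : ℕ) : ZMod m)‖ * (c p * (p : ℝ) ^ (-s))
          ≤ 1 * (c p * (p : ℝ) ^ (-s)) :=
            mul_le_mul_of_nonneg_right (DirichletCharacter.norm_le_one χ _)
              (abs941_term_nonneg hc s p)
        _ = c p * (p : ℝ) ^ (-s) := one_mul _
        _ ≤ c p := abs941_term_le hc hs p
    have h2 : ‖((c p * (p : ℝ) ^ (-s) : ℝ) : ℂ)‖ ≤ c p := by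
      rw [Complex.norm_real, Real.norm_of_nonneg (abs941_term_nonneg hc s p)]
      exact abs941_term_le hc hs p
    calc ‖χ ((p : ℕ) : ZMod m) * ((c p * (p : ℝ) ^ (-s) : ℝ) : ℂ) -
          ((c p * (p : ℝ) ^ (-s) : ℝ) : ℂ)‖
        ≤ ‖χ ((p : ℕ) : ZMod m) * ((c p * (p : ℝ) ^ (-s) : ℝ) : ℂ)‖ +
          ‖((c p * (p : ℝ) ^ (-s) : ℝ) : ℂ)‖ := norm_sub_le _ _
      _ ≤ c p + c p := add_le_add h1 h2
      _ = 2 * c p := by ring
  · rw [if_neg hp]
    by_cases hcp : c p = 0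
    · simp [hcp]
    · obtain ⟨u, hu, hup⟩ := hB p hp hcp
      rw [← hup, hχ u hu, one_mul, sub_self, norm_zero]

/-- `log (1 / (s - 1)) ≥ 0` on `(1, 2]`. -/
theorem abs941_log_nonneg {s : ℝ} (hs1 : 1 < s) (hs2 : s ≤ 2) : 0 ≤ Real.log (1 / (s - 1)) := by
  apply Real.log_nonneg
  rw [le_div_iff₀ (by linarith)]
  linarith

/-- The real part of a complex number is at least minus its norm. -/
theorem abs941_neg_norm_le_re (z : ℂ) : -‖z‖ ≤ z.re := by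
  have := Complex.abs_re_le_norm z
  have h2 := neg_abs_le z.re
  linarith

/-- **ABS** (the abstract Dirichlet lemma), verbatim `H221.AbstractDirichletStatement`. -/
theorem abs941_abstractDirichlet :
    ∀ (m : ℕ) [NeZero m] (c : Nat.Primes → ℝ), (∀ p, 0 ≤ c p) →
    (∀ s : ℝ, 1 < s → s ≤ 2 → Summable (fun p : Nat.Primes => c p * (p : ℝ) ^ (-s))) →
    ∀ A : Subgroup (ZMod m)ˣ,
    (∃ B : Finset ℕ, ∀ p : Nat.Primes, (p : ℕ) ∉ B → c p ≠ 0 →
      ∃ u ∈ A, ((u : (ZMod m)ˣ) : ZMod m) = ((p : ℕ) : ZMod m)) →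
    (∃ C : ℝ, ∀ s : ℝ, 1 < s → s ≤ 2 →
      |(∑' p : Nat.Primes, c p * (p : ℝ) ^ (-s)) - Real.log (1 / (s - 1))| ≤ C) →
    (∃ C : ℝ, ∀ s : ℝ, 1 < s → s ≤ 2 →
      (Nat.card A : ℝ)⁻¹ * Real.log (1 / (s - 1)) - C ≤
        ∑' p : Nat.Primes, if ((p : ℕ) : ZMod m) = 1 then c p * (p : ℝ) ^ (-s) else 0) →
    (∀ χ : DirichletCharacter ℂ m, (∃ u ∈ A, χ ((u : (ZMod m)ˣ) : ZMod m) ≠ 1) →
      ∃ (Λ : ℝ → ℂ) (ℓ : ℂ) (C : ℝ), ContinuousOn Λ (Set.Ioi 1) ∧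
        Tendsto (fun s => Complex.exp (Λ s)) (𝓝[>] 1) (𝓝 ℓ) ∧
        ∀ s : ℝ, 1 < s → s ≤ 2 →
          ‖Λ s - ∑' p : Nat.Primes, χ ((p : ℕ) : ZMod m) * ((c p * (p : ℝ) ^ (-s) : ℝ) : ℂ)‖ ≤ C) →
    ∀ a ∈ A, ∀ S : Finset ℕ, ∃ p : Nat.Primes, (p : ℕ) ∉ S ∧
      ((p : ℕ) : ZMod m) = ((a : (ZMod m)ˣ) : ZMod m) ∧ c p ≠ 0 := by
  intro m _ c hc hsum A ⟨B, hB⟩ ⟨C₀, hC₀⟩ ⟨C₁, hC₁⟩ HL a ha S
  by_contra hcon
  push Not at hcon
  -- notation
  set X : Finset (DirichletCharacter ℂ m) := abs941_trivOn A with hX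
  set P : ℝ → ℝ := fun s => ∑' p : Nat.Primes, c p * (p : ℝ) ^ (-s) with hP
  set T : DirichletCharacter ℂ m → ℝ → ℂ := fun χ s =>
    ∑' p : Nat.Primes, χ ((p : ℕ) : ZMod m) * ((c p * (p : ℝ) ^ (-s) : ℝ) : ℂ) with hT
  set CB : ℝ := ∑' p : Nat.Primes, if (p : ℕ) ∈ B then 2 * c p else 0 with hCB
  set φ : ℝ := (m.totient : ℝ) with hφ
  set k : ℝ := (X.card : ℝ) with hk
  have hφ0 : 0 < φ := by
    rw [hφ]
    exact_mod_cast Nat.totient_pos.mpr (Nat.pos_of_ne_zero (NeZero.ne m))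
  have hk1 : 1 ≤ k := by
    rw [hk]
    have : 0 < X.card := Finset.card_pos.mpr ⟨1, abs941_one_mem_trivOn A⟩
    exact_mod_cast this
  have hkA : k * (Nat.card A : ℝ) = φ := by
    have := abs941_card_trivOn_mul_card A
    rw [hk, hφ]
    exact_mod_cast this
  have hNA : (0 : ℝ) < Nat.card A := by
    have : 0 < Nat.card A := Nat.card_pos
    exact_mod_cast this
  have hφNA : φ * (Nat.card A : ℝ)⁻¹ = k := by
    rw [← hkA]
    field_simp
  -- characters trivial on `A`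
  have hTX : ∀ χ ∈ X, ∀ s : ℝ, 1 < s → s ≤ 2 → ‖T χ s - ((P s : ℝ) : ℂ)‖ ≤ CB := by
    intro χ hχ s hs1 hs2
    exact abs941_twist_sub_le hc A B hB (abs941_mem_trivOn.mp hχ) (by linarith) (hsum s hs1 hs2)
  have hTXre : ∀ χ ∈ X, ∀ s : ℝ, 1 < s → s ≤ 2 →
      |(T χ s).re - P s| ≤ CB := by
    intro χ hχ s hs1 hs2
    have h1 := Complex.abs_re_le_norm (T χ s - ((P s : ℝ) : ℂ))
    rw [Complex.sub_re, Complex.ofReal_re] at h1
    exact h1.trans (hTX χ hχ s hs1 hs2)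
  -- the other characters
  have HL' : ∀ χ : DirichletCharacter ℂ m, χ ∉ X →
      ∃ (Λ : ℝ → ℂ) (ℓ : ℂ) (C : ℝ), ContinuousOn Λ (Set.Ioi 1) ∧
        Tendsto (fun s => Complex.exp (Λ s)) (𝓝[>] 1) (𝓝 ℓ) ∧
        ∀ s : ℝ, 1 < s → s ≤ 2 → ‖Λ s - T χ s‖ ≤ C :=
    fun χ hχ => HL χ (abs941_not_mem_trivOn.mp hχ)
  choose! Λ ℓv Cχ hΛ using HL'
  -- Step 4: lower bound for the sum of the real parts over the complement
  have h4 : ∀ s : ℝ, 1 < s → s ≤ 2 →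
      -(φ * C₁ + k * (C₀ + CB)) ≤ ∑ χ ∈ Xᶜ, (T χ s).re := by
    intro s hs1 hs2
    have horth := abs941_orth (m := m) (1 : (ZMod m)ˣ) (hsum s hs1 hs2)
    have e1 : ∀ χ : DirichletCharacter ℂ m, χ (((1 : (ZMod m)ˣ) : ZMod m)⁻¹) = 1 := fun χ => by
      rw [ZMod.inv_coe_unit, inv_one, Units.val_one, map_one]
    rw [Finset.sum_congr rfl fun χ _ => by rw [e1 χ, one_mul]] at horth
    simp only [Units.val_one] at horth
    have hre : ∑ χ : DirichletCharacter ℂ m, (T χ s).re =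
        φ * ∑' p : Nat.Primes, if ((p : ℕ) : ZMod m) = 1 then c p * (p : ℝ) ^ (-s) else 0 := by
      have h := congrArg Complex.re horth
      rw [Complex.re_sum] at h
      refine h.trans ?_
      rw [← Complex.ofReal_natCast, ← Complex.ofReal_mul, Complex.ofReal_re]
    have hsplit := Finset.sum_add_sum_compl X fun χ => (T χ s).re
    have hXle : ∑ χ ∈ X, (T χ s).re ≤ k * (Real.log (1 / (s - 1)) + C₀ + CB) := by
      have h1 : ∀ χ ∈ X, (T χ s).re ≤ Real.log (1 / (s - 1)) + C₀ + CB := by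
        intro χ hχ
        have a1 := abs_le.mp (hTXre χ hχ s hs1 hs2)
        have a2 := abs_le.mp (hC₀ s hs1 hs2)
        linarith [a1.2, a2.2]
      calc ∑ χ ∈ X, (T χ s).re ≤ ∑ _χ ∈ X, (Real.log (1 / (s - 1)) + C₀ + CB) :=
            Finset.sum_le_sum h1
        _ = k * (Real.log (1 / (s - 1)) + C₀ + CB) := by
            rw [Finset.sum_const, nsmul_eq_mul]
    have hD1 := hC₁ s hs1 hs2
    have hD1' : φ * ((Nat.card A : ℝ)⁻¹ * Real.log (1 / (s - 1)) - C₁) ≤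
        φ * ∑' p : Nat.Primes, if ((p : ℕ) : ZMod m) = 1 then c p * (p : ℝ) ^ (-s) else 0 :=
      mul_le_mul_of_nonneg_left hD1 hφ0.le
    have hexp : φ * ((Nat.card A : ℝ)⁻¹ * Real.log (1 / (s - 1)) - C₁) =
        k * Real.log (1 / (s - 1)) - φ * C₁ := by
      rw [← hφNA]
      ring
    rw [hexp] at hD1'
    have hlin : k * (Real.log (1 / (s - 1)) + C₀ + CB) =
        k * Real.log (1 / (s - 1)) + k * (C₀ + CB) := by ring
    linarith
  -- Step 5: the limits are nonzero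
  set C₃ : ℝ := (φ * C₁ + k * (C₀ + CB)) + ∑ χ ∈ Xᶜ, Cχ χ with hC₃
  have h5a : ∀ s : ℝ, 1 < s → s ≤ 2 → -C₃ ≤ ∑ χ ∈ Xᶜ, (Λ χ s).re := by
    intro s hs1 hs2
    have h1 : ∀ χ ∈ Xᶜ, (T χ s).re - Cχ χ ≤ (Λ χ s).re := by
      intro χ hχ
      have hχ' : χ ∉ X := Finset.mem_compl.mp hχ
      have a1 := Complex.abs_re_le_norm (Λ χ s - T χ s)
      rw [Complex.sub_re] at a1
      have a2 := (hΛ χ hχ').2.2 s hs1 hs2
      have a3 := abs_le.mp (a1.trans a2)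
      linarith [a3.1]
    have h2 : ∑ χ ∈ Xᶜ, ((T χ s).re - Cχ χ) ≤ ∑ χ ∈ Xᶜ, (Λ χ s).re := Finset.sum_le_sum h1
    rw [Finset.sum_sub_distrib] at h2
    have h3 := h4 s hs1 hs2
    rw [hC₃]
    linarith
  have h5b : Real.exp (-C₃) ≤ ∏ χ ∈ Xᶜ, ‖ℓv χ‖ := by
    have hlim : Tendsto (fun s : ℝ => ∏ χ ∈ Xᶜ, ‖Complex.exp (Λ χ s)‖) (𝓝[>] (1 : ℝ))
        (𝓝 (∏ χ ∈ Xᶜ, ‖ℓv χ‖)) :=
      tendsto_finsetProd _ fun χ hχ => ((hΛ χ (Finset.mem_compl.mp hχ)).2.1).norm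
    refine ge_of_tendsto hlim ?_
    filter_upwards [Ioc_mem_nhdsGT (show (1 : ℝ) < 2 by norm_num)] with s hs
    have h1 : ∏ χ ∈ Xᶜ, ‖Complex.exp (Λ χ s)‖ = Real.exp (∑ χ ∈ Xᶜ, (Λ χ s).re) := by
      rw [Real.exp_sum]
      exact Finset.prod_congr rfl fun χ _ => Complex.norm_exp _
    rw [h1]
    exact Real.exp_le_exp.mpr (h5a s hs.1 hs.2)
  have h5 : ∀ χ, χ ∉ X → ℓv χ ≠ 0 := by
    intro χ hχ h0
    have : ∏ χ ∈ Xᶜ, ‖ℓv χ‖ = 0 :=
      Finset.prod_eq_zero (Finset.mem_compl.mpr hχ) (by rw [h0, norm_zero])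
    rw [this] at h5b
    exact absurd h5b (not_le.mpr (Real.exp_pos _))
  -- Step 6: the twisted sums of the other characters are bounded
  have h6 : ∀ χ, χ ∉ X → ∃ Bd : ℝ, ∀ s : ℝ, 1 < s → s ≤ 2 → ‖T χ s‖ ≤ Bd := by
    intro χ hχ
    obtain ⟨B₁, hB₁⟩ := abs941_bounded_of_exp_tendsto (hΛ χ hχ).1 (h5 χ hχ) (hΛ χ hχ).2.1
    refine ⟨B₁ + Cχ χ, fun s hs1 hs2 => ?_⟩
    have a1 := hB₁ s hs1 hs2
    have a2 := (hΛ χ hχ).2.2 s hs1 hs2
    have a3 : ‖T χ s‖ ≤ ‖Λ χ s‖ + ‖Λ χ s - T χ s‖ := by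
      have := norm_sub_le (Λ χ s) (Λ χ s - T χ s)
      simpa using this
    linarith
  choose! Bd hBd using h6
  -- Step 7: lower bound for the class of `a`
  set Da : ℝ → ℝ := fun s => ∑' p : Nat.Primes,
    if ((p : ℕ) : ZMod m) = ((a : (ZMod m)ˣ) : ZMod m) then c p * (p : ℝ) ^ (-s) else 0 with hDa
  set C₄ : ℝ := k * (C₀ + CB) + ∑ χ ∈ Xᶜ, Bd χ with hC₄
  have h7 : ∀ s : ℝ, 1 < s → s ≤ 2 → Real.log (1 / (s - 1)) - C₄ ≤ φ * Da s := by
    intro s hs1 hs2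
    have horth := abs941_orth (m := m) a (hsum s hs1 hs2)
    have hre : ∑ χ : DirichletCharacter ℂ m,
        (χ (((a : (ZMod m)ˣ) : ZMod m)⁻¹) * T χ s).re = φ * Da s := by
      have h := congrArg Complex.re horth
      rw [Complex.re_sum] at h
      refine h.trans ?_
      rw [← Complex.ofReal_natCast, ← Complex.ofReal_mul, Complex.ofReal_re]
    have hsplit := Finset.sum_add_sum_compl X
      fun χ => (χ (((a : (ZMod m)ˣ) : ZMod m)⁻¹) * T χ s).re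
    have hℓ := abs941_log_nonneg hs1 hs2
    have hXge : k * (Real.log (1 / (s - 1)) - C₀ - CB) ≤
        ∑ χ ∈ X, (χ (((a : (ZMod m)ˣ) : ZMod m)⁻¹) * T χ s).re := by
      have h1 : ∀ χ ∈ X, Real.log (1 / (s - 1)) - C₀ - CB ≤
          (χ (((a : (ZMod m)ˣ) : ZMod m)⁻¹) * T χ s).re := by
        intro χ hχ
        have e1 : χ (((a : (ZMod m)ˣ) : ZMod m)⁻¹) = 1 := by
          rw [ZMod.inv_coe_unit]
          exact abs941_mem_trivOn.mp hχ _ (A.inv_mem ha)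
        rw [e1, one_mul]
        have a1 := abs_le.mp (hTXre χ hχ s hs1 hs2)
        have a2 := abs_le.mp (hC₀ s hs1 hs2)
        linarith [a1.1, a2.1]
      calc k * (Real.log (1 / (s - 1)) - C₀ - CB)
          = ∑ _χ ∈ X, (Real.log (1 / (s - 1)) - C₀ - CB) := by
            rw [Finset.sum_const, nsmul_eq_mul]
        _ ≤ _ := Finset.sum_le_sum h1
    have hXcge : -∑ χ ∈ Xᶜ, Bd χ ≤
        ∑ χ ∈ Xᶜ, (χ (((a : (ZMod m)ˣ) : ZMod m)⁻¹) * T χ s).re := by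
      rw [← Finset.sum_neg_distrib]
      refine Finset.sum_le_sum fun χ hχ => ?_
      have hχ' : χ ∉ X := Finset.mem_compl.mp hχ
      have a1 := abs941_neg_norm_le_re (χ (((a : (ZMod m)ˣ) : ZMod m)⁻¹) * T χ s)
      have a2 : ‖χ (((a : (ZMod m)ˣ) : ZMod m)⁻¹) * T χ s‖ ≤ ‖T χ s‖ := by
        rw [norm_mul]
        exact mul_le_of_le_one_left (norm_nonneg _) (DirichletCharacter.norm_le_one χ _)
      have a3 := hBd χ hχ' s hs1 hs2
      linarith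
    have hkl : Real.log (1 / (s - 1)) ≤ k * Real.log (1 / (s - 1)) :=
      le_mul_of_one_le_left hℓ hk1
    have hlin : k * (Real.log (1 / (s - 1)) - C₀ - CB) =
        k * Real.log (1 / (s - 1)) - k * (C₀ + CB) := by ring
    rw [hC₄]
    linarith
  -- Step 8: but the class of `a` only contains finitely many primes with `c p ≠ 0`
  set CS : ℝ := ∑' p : Nat.Primes, if (p : ℕ) ∈ S then c p else 0 with hCS
  have h8 : ∀ s : ℝ, 1 < s → s ≤ 2 → Da s ≤ CS := by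
    intro s hs1 hs2
    have hs0 : (0 : ℝ) ≤ s := by linarith
    have hsumD : Summable fun p : Nat.Primes =>
        if ((p : ℕ) : ZMod m) = ((a : (ZMod m)ˣ) : ZMod m) then c p * (p : ℝ) ^ (-s) else 0 := by
      refine Summable.of_nonneg_of_le (fun p => ?_) (fun p => ?_) (hsum s hs1 hs2)
      · split_ifs
        · exact abs941_term_nonneg hc s p
        · exact le_rfl
      · split_ifs
        · exact le_rfl
        · exact abs941_term_nonneg hc s p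
    refine hsumD.tsum_le_tsum (fun p => ?_) (abs941_summable_indicator S c)
    by_cases hpa : ((p : ℕ) : ZMod m) = ((a : (ZMod m)ˣ) : ZMod m)
    · rw [if_pos hpa]
      by_cases hpS : (p : ℕ) ∈ S
      · rw [if_pos hpS]
        exact abs941_term_le hc hs0 p
      · rw [if_neg hpS, hcon p hpS hpa, zero_mul]
    · rw [if_neg hpa]
      split_ifs
      · exact hc p
      · exact le_rfl
  -- contradiction at `s₀ = 1 + exp (-M)`
  set R : ℝ := φ * CS + C₄ with hR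
  set M : ℝ := max R 0 + 1 with hM
  have hM0 : 0 ≤ M := by
    have := le_max_right R 0
    linarith
  have hMR : R < M := by
    have := le_max_left R 0
    linarith
  set s₀ : ℝ := 1 + Real.exp (-M) with hs₀
  have hs₀1 : 1 < s₀ := by
    have := Real.exp_pos (-M)
    linarith
  have hs₀2 : s₀ ≤ 2 := by
    have : Real.exp (-M) ≤ 1 := Real.exp_le_one_iff.mpr (by linarith)
    linarith
  have hlog : Real.log (1 / (s₀ - 1)) = M := by
    have : s₀ - 1 = Real.exp (-M) := by rw [hs₀]; ring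
    rw [this, one_div, ← Real.exp_neg, neg_neg, Real.log_exp]
  have e7 := h7 s₀ hs₀1 hs₀2
  have e8 := h8 s₀ hs₀1 hs₀2
  have e9 : φ * Da s₀ ≤ φ * CS := mul_le_mul_of_nonneg_left e8 hφ0.le
  rw [hlog] at e7
  linarith

end Fermat.Agent.Lib.Cheb.H941
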