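import Fermat.Agent.Lib.Cheb.H941.AbstractDirichlet

/-!
# CYC piece ABS (helper941), part 1: characters trivial on a subgroup, general log bound

* `abs941_bounded_of_exp_tendsto` : `Λ` continuous on `(1, ∞)` with `exp ∘ Λ → l ≠ 0` at `1⁺`
  is bounded on `(1, 2]`;
* `abs941_sum_subgroup_eq_zero` : a character nontrivial on `A` sums to `0` over `A`;
* `abs941_card_trivOn_mul_card` : `#{χ trivial on A} * |A| = φ(m)`.
-/

namespace Fermat.Agent.Lib.Cheb.H941

open Filter Topology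
open scoped Classical

/-- If `exp ∘ Λ` has a nonzero limit at `1⁺` and `Λ` is continuous on `(1, ∞)`, then `Λ` is
bounded on `(1, 2]`. -/
theorem abs941_bounded_of_exp_tendsto {Λ : ℝ → ℂ} (hΛ : ContinuousOn Λ (Set.Ioi 1)) {l : ℂ}
    (hl : l ≠ 0) (hlim : Tendsto (fun s => Complex.exp (Λ s)) (𝓝[>] (1 : ℝ)) (𝓝 l)) :
    ∃ B : ℝ, ∀ s : ℝ, 1 < s → s ≤ 2 → ‖Λ s‖ ≤ B := by
  set E : ℝ → ℂ := fun s => Complex.exp (Λ s) with hE
  have hEcont : ContinuousOn E (Set.Ioi 1) := Complex.continuous_exp.comp_continuousOn hΛ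
  have hEne : ∀ s, E s ≠ 0 := fun s => Complex.exp_ne_zero _
  have h0 : Tendsto (fun s => E s / l - 1) (𝓝[>] (1 : ℝ)) (𝓝 0) := by
    have := (hlim.div_const l).sub_const 1
    simpa [div_self hl] using this
  have hn : Tendsto (fun s => ‖E s / l - 1‖) (𝓝[>] (1 : ℝ)) (𝓝 0) := by
    simpa using h0.norm
  have h1 : ∀ᶠ s in 𝓝[>] (1:ℝ), ‖E s / l - 1‖ < 1 / 2 :=
    hn.eventually_lt_const (by norm_num)
  obtain ⟨u₀, hu₀, hsub⟩ := mem_nhdsGT_iff_exists_Ioc_subset.mp h1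
  have hu₀' : (1:ℝ) < u₀ := hu₀
  set u : ℝ := min u₀ 2 with hu
  have hu1 : 1 < u := lt_min hu₀' (by norm_num)
  have hu2 : u ≤ 2 := min_le_right _ _
  have hclose : ∀ s, 1 < s → s ≤ u → ‖E s / l - 1‖ < 1 / 2 := fun s hs1 hs2 =>
    hsub ⟨hs1, hs2.trans (min_le_left _ _)⟩
  set w : ℝ → ℂ := fun s => Λ s - Complex.log (E s / l) with hw
  have hslit : ∀ s, 1 < s → s ≤ u → E s / l ∈ Complex.slitPlane := by
    intro s hs1 hs2
    have h2 : ‖E s / l - 1‖ < 1 := (hclose s hs1 hs2).trans (by norm_num)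
    have := Complex.mem_slitPlane_of_norm_lt_one h2
    simpa using this
  have hwcont : ContinuousOn w (Set.Ioc 1 u) := by
    refine (hΛ.mono Set.Ioc_subset_Ioi_self).sub ?_
    refine ContinuousOn.clog ?_ fun s hs => hslit s hs.1 hs.2
    exact (hEcont.mono Set.Ioc_subset_Ioi_self).div_const l
  have hwexp : ∀ s, 1 < s → s ≤ u → Complex.exp (w s) = l := by
    intro s hs1 hs2
    have hne : E s / l ≠ 0 := div_ne_zero (hEne s) hl
    rw [hw]
    simp only
    rw [Complex.exp_sub, Complex.exp_log hne]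
    have hL := hEne s
    simp only [hE] at hL ⊢
    field_simp
  have hwconst : ∀ s, 1 < s → s ≤ u → w s = w u := by
    intro s hs1 hs2
    have hdiff : ∀ t ∈ Set.uIcc s u, ∃ n : ℤ, w t - w u = n * (2 * Real.pi * Complex.I) := by
      intro t ht
      rw [Set.uIcc_of_le hs2] at ht
      have ht1 : 1 < t := hs1.trans_le ht.1
      have : Complex.exp (w t - w u) = 1 := by
        rw [Complex.exp_sub, hwexp t ht1 ht.2, hwexp u hu1 le_rfl, div_self hl]
      exact Complex.exp_eq_one_iff.mp this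
    have hg : ContinuousOn (fun t => (w t - w u).im) (Set.uIcc s u) := by
      rw [Set.uIcc_of_le hs2]
      have hsubset : Set.Icc s u ⊆ Set.Ioc 1 u := fun t ht => ⟨hs1.trans_le ht.1, ht.2⟩
      exact Complex.continuous_im.comp_continuousOn ((hwcont.mono hsubset).sub continuousOn_const)
    have hint : ∀ t ∈ Set.uIcc s u, ∃ n : ℤ, (w t - w u).im = n * (2 * Real.pi) := by
      intro t ht
      obtain ⟨n, hn⟩ := hdiff t ht
      refine ⟨n, ?_⟩
      rw [hn]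
      simp
    have him := eq_of_continuousOn_of_forall_int hg hint
    simp only [sub_self, Complex.zero_im] at him
    obtain ⟨n, hn⟩ := hdiff s Set.left_mem_uIcc
    have hn0 : (n : ℝ) * (2 * Real.pi) = 0 := by
      have := congrArg Complex.im hn
      simp at this
      rw [← this]; exact him
    have hn0' : (n : ℝ) = 0 := by
      rcases mul_eq_zero.mp hn0 with h5 | h5
      · exact h5
      · exact absurd h5 (by positivity)
    have hn0'' : (n : ℂ) = 0 := by exact_mod_cast hn0'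
    rw [hn0'', zero_mul] at hn
    exact sub_eq_zero.mp hn
  have hb1 : ∀ s, 1 < s → s ≤ u → ‖Λ s‖ ≤ ‖w u‖ + 1 := by
    intro s hs1 hs2
    have h3 : Λ s = w u + Complex.log (E s / l) := by
      rw [← hwconst s hs1 hs2, hw]
      ring
    have h4 : ‖Complex.log (E s / l)‖ ≤ 1 := by
      have h5 : E s / l = 1 + (E s / l - 1) := by ring
      rw [h5]
      have h6 := Complex.norm_log_one_add_half_le_self (hclose s hs1 hs2).le
      have h7 := hclose s hs1 hs2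
      linarith
    rw [h3]
    exact (norm_add_le _ _).trans (by linarith)
  obtain ⟨C, hC⟩ := (isCompact_Icc (a := u) (b := 2)).exists_bound_of_continuousOn
    (hΛ.mono fun t ht => (hu1.trans_le ht.1 : (1:ℝ) < t))
  refine ⟨max (‖w u‖ + 1) C, fun s hs1 hs2 => ?_⟩
  rcases le_or_gt s u with hsu | hsu
  · exact (hb1 s hs1 hsu).trans (le_max_left _ _)
  · exact (hC s ⟨hsu.le, hs2⟩).trans (le_max_right _ _)

variable {m : ℕ} [NeZero m]

/-- The sum of a character over a subgroup on which it is nontrivial vanishes. -/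
theorem abs941_sum_subgroup_eq_zero (A : Subgroup (ZMod m)ˣ) (χ : DirichletCharacter ℂ m)
    (h : ∃ u ∈ A, χ ((u : (ZMod m)ˣ) : ZMod m) ≠ 1) :
    ∑ u : A, χ (((u : (ZMod m)ˣ) : (ZMod m)ˣ) : ZMod m) = 0 := by
  obtain ⟨u₀, hu₀, hne⟩ := h
  have h1 : ∑ u : A, χ (((u : (ZMod m)ˣ) : (ZMod m)ˣ) : ZMod m) =
      χ ((u₀ : (ZMod m)ˣ) : ZMod m) * ∑ u : A, χ (((u : (ZMod m)ˣ) : (ZMod m)ˣ) : ZMod m) := by
    rw [Finset.mul_sum]
    refine (Fintype.sum_equiv (Equiv.mulLeft (⟨u₀, hu₀⟩ : A)) _ _ fun u ↦ ?_).symm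
    simp [map_mul]
  by_contra hS
  apply hne
  exact mul_right_cancel₀ hS (show χ ((u₀ : (ZMod m)ˣ) : ZMod m) *
      ∑ u : A, χ (((u : (ZMod m)ˣ) : (ZMod m)ˣ) : ZMod m) =
      1 * ∑ u : A, χ (((u : (ZMod m)ˣ) : (ZMod m)ˣ) : ZMod m) by rw [one_mul]; exact h1.symm)

/-- The sum of a character over a subgroup on which it is trivial. -/
theorem abs941_sum_subgroup_eq_card (A : Subgroup (ZMod m)ˣ) (χ : DirichletCharacter ℂ m)
    (h : ∀ u ∈ A, χ ((u : (ZMod m)ˣ) : ZMod m) = 1) :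
    ∑ u : A, χ (((u : (ZMod m)ˣ) : (ZMod m)ˣ) : ZMod m) = (Nat.card A : ℂ) := by
  have h1 : ∀ u : A, χ (((u : (ZMod m)ˣ) : (ZMod m)ˣ) : ZMod m) = 1 := fun u ↦ h u.1 u.2
  rw [Finset.sum_congr rfl fun u _ ↦ h1 u]
  simp [Nat.card_eq_fintype_card]

/-- The set of characters trivial on `A`. -/
noncomputable def abs941_trivOn (A : Subgroup (ZMod m)ˣ) : Finset (DirichletCharacter ℂ m) :=
  Finset.univ.filter fun χ ↦ ∀ u ∈ A, χ ((u : (ZMod m)ˣ) : ZMod m) = 1

theorem abs941_mem_trivOn {A : Subgroup (ZMod m)ˣ} {χ : DirichletCharacter ℂ m} :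
    χ ∈ abs941_trivOn A ↔ ∀ u ∈ A, χ ((u : (ZMod m)ˣ) : ZMod m) = 1 := by
  simp [abs941_trivOn]

theorem abs941_not_mem_trivOn {A : Subgroup (ZMod m)ˣ} {χ : DirichletCharacter ℂ m} :
    χ ∉ abs941_trivOn A ↔ ∃ u ∈ A, χ ((u : (ZMod m)ˣ) : ZMod m) ≠ 1 := by
  rw [abs941_mem_trivOn]
  push Not
  rfl

theorem abs941_one_mem_trivOn (A : Subgroup (ZMod m)ˣ) :
    (1 : DirichletCharacter ℂ m) ∈ abs941_trivOn A := by
  rw [abs941_mem_trivOn]
  intro u _
  exact MulChar.one_apply_coe u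

/-- `#{χ trivial on A} * |A| = φ(m)`. -/
theorem abs941_card_trivOn_mul_card (A : Subgroup (ZMod m)ˣ) :
    ((abs941_trivOn A).card : ℂ) * (Nat.card A : ℂ) = (m.totient : ℂ) := by
  have h1 : ∑ χ : DirichletCharacter ℂ m, ∑ u : A, χ (((u : (ZMod m)ˣ) : (ZMod m)ˣ) : ZMod m) =
      (m.totient : ℂ) := by
    rw [Finset.sum_comm]
    have h2 : ∀ u : A, ∑ χ : DirichletCharacter ℂ m, χ (((u : (ZMod m)ˣ) : (ZMod m)ˣ) : ZMod m) =
        if u = 1 then (m.totient : ℂ) else 0 := by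
      intro u
      rw [DirichletCharacter.sum_characters_eq]
      have : ((((u : (ZMod m)ˣ) : (ZMod m)ˣ) : ZMod m) = 1) ↔ u = 1 := by
        rw [Units.val_eq_one]
        exact ⟨fun h ↦ Subtype.ext h, fun h ↦ by rw [h]; rfl⟩
      simp only [this]
    rw [Finset.sum_congr rfl fun u _ ↦ h2 u]
    simp
  rw [← h1, ← Finset.sum_filter_add_sum_filter_not Finset.univ
    (fun χ : DirichletCharacter ℂ m ↦ ∀ u ∈ A, χ ((u : (ZMod m)ˣ) : ZMod m) = 1)]
  have h3 : ∑ χ ∈ Finset.univ.filter (fun χ : DirichletCharacter ℂ m ↦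
      ¬ ∀ u ∈ A, χ ((u : (ZMod m)ˣ) : ZMod m) = 1),
      ∑ u : A, χ (((u : (ZMod m)ˣ) : (ZMod m)ˣ) : ZMod m) = 0 := by
    refine Finset.sum_eq_zero fun χ hχ ↦ ?_
    rw [Finset.mem_filter] at hχ
    apply abs941_sum_subgroup_eq_zero
    have := hχ.2
    push Not at this
    exact this
  have h4 : ∑ χ ∈ Finset.univ.filter (fun χ : DirichletCharacter ℂ m ↦
      ∀ u ∈ A, χ ((u : (ZMod m)ˣ) : ZMod m) = 1),
      ∑ u : A, χ (((u : (ZMod m)ˣ) : (ZMod m)ˣ) : ZMod m) =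
      ((abs941_trivOn A).card : ℂ) * (Nat.card A : ℂ) := by
    rw [Finset.sum_congr rfl fun χ hχ ↦
      abs941_sum_subgroup_eq_card A χ (Finset.mem_filter.mp hχ).2]
    rw [Finset.sum_const, nsmul_eq_mul]
    rfl
  rw [h3, h4, add_zero]

end Fermat.Agent.Lib.Cheb.H941
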