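import Mathlib

/-!
# Abstract form of Dirichlet's argument (helper941, row CHEB)

Index type `ι` ("primes"), norms `N i ≥ 2` with `∑ N i ^ (-s) < ∞` for `s > 1`, and bounded
coefficient functions `a : ι → ℂ` ("character values").  We study

* `logEuler N a s = ∑' i, log (1 - a i * N i ^ (-s))⁻¹`,
* `primeSum N a s = ∑' i, a i * N i ^ (-s)`,
* `eulerProd N a s = ∏' i, (1 - a i * N i ^ (-s))⁻¹`.
-/

set_option autoImplicit false

open Filter Topology Complex

namespace Fermat.Agent.Lib.Cheb.H941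

noncomputable section

variable {ι : Type*}

/-- The `i`-th term `a i * N i ^ (-s)`. -/
def term (N : ι → ℝ) (a : ι → ℂ) (s : ℝ) (i : ι) : ℂ := a i * ((N i ^ (-s) : ℝ) : ℂ)

/-- `∑' i, a i * N i ^ (-s)`. -/
def primeSum (N : ι → ℝ) (a : ι → ℂ) (s : ℝ) : ℂ := ∑' i, term N a s i

/-- `∑' i, log (1 - a i * N i ^ (-s))⁻¹`. -/
def logEuler (N : ι → ℝ) (a : ι → ℂ) (s : ℝ) : ℂ := ∑' i, Complex.log (1 - term N a s i)⁻¹

/-- `∏' i, (1 - a i * N i ^ (-s))⁻¹`. -/
def eulerProd (N : ι → ℝ) (a : ι → ℂ) (s : ℝ) : ℂ := ∏' i, (1 - term N a s i)⁻¹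

/-- Standing hypotheses on the norms. -/
structure NormData (N : ι → ℝ) : Prop where
  two_le : ∀ i, 2 ≤ N i
  summable : ∀ s : ℝ, 1 < s → Summable (fun i => N i ^ (-s))

variable {N : ι → ℝ} {a : ι → ℂ}

lemma NormData.pos (h : NormData N) (i : ι) : 0 < N i := by linarith [h.two_le i]

lemma NormData.rpow_le_half (h : NormData N) {s : ℝ} (hs : 1 ≤ s) (i : ι) :
    N i ^ (-s) ≤ 1 / 2 := by
  have h2 := h.two_le i
  have hpos := h.pos i
  calc N i ^ (-s) ≤ N i ^ (-(1:ℝ)) :=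
        Real.rpow_le_rpow_of_exponent_le (by linarith) (by linarith)
    _ = (N i)⁻¹ := by rw [Real.rpow_neg_one]
    _ ≤ 2⁻¹ := by
        apply inv_anti₀ (by norm_num) h2
    _ = 1 / 2 := by norm_num

lemma norm_term_le (h : NormData N) (ha : ∀ i, ‖a i‖ ≤ 1) (s : ℝ) (i : ι) :
    ‖term N a s i‖ ≤ N i ^ (-s) := by
  unfold term
  rw [norm_mul, Complex.norm_real, Real.norm_of_nonneg (Real.rpow_nonneg (h.pos i).le _)]
  calc ‖a i‖ * N i ^ (-s) ≤ 1 * N i ^ (-s) :=
        mul_le_mul_of_nonneg_right (ha i) (Real.rpow_nonneg (h.pos i).le _)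
    _ = N i ^ (-s) := one_mul _

lemma norm_term_le_half (h : NormData N) (ha : ∀ i, ‖a i‖ ≤ 1) {s : ℝ} (hs : 1 ≤ s) (i : ι) :
    ‖term N a s i‖ ≤ 1 / 2 :=
  (norm_term_le h ha s i).trans (h.rpow_le_half hs i)

lemma summable_term (h : NormData N) (ha : ∀ i, ‖a i‖ ≤ 1) {s : ℝ} (hs : 1 < s) :
    Summable (term N a s) :=
  Summable.of_norm_bounded (h.summable s hs) (norm_term_le h ha s)

/-- The basic bound `‖log (1 - z)⁻¹ - z‖ ≤ ‖z‖ ^ 2` for `‖z‖ ≤ 1/2`. -/
lemma norm_log_sub_le_sq {z : ℂ} (hz : ‖z‖ ≤ 1 / 2) :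
    ‖Complex.log (1 - z)⁻¹ - z‖ ≤ ‖z‖ ^ 2 := by
  have h1 : ‖z‖ < 1 := lt_of_le_of_lt hz (by norm_num)
  have h2 := Complex.norm_log_one_sub_inv_sub_self_le h1
  have h3 : (1 - ‖z‖)⁻¹ ≤ 2 := by
    rw [inv_le_comm₀ (by linarith) (by norm_num)]
    linarith
  calc ‖Complex.log (1 - z)⁻¹ - z‖ ≤ ‖z‖ ^ 2 * (1 - ‖z‖)⁻¹ / 2 := h2
    _ ≤ ‖z‖ ^ 2 * 2 / 2 := by gcongr
    _ = ‖z‖ ^ 2 := by ring

lemma norm_log_le {z : ℂ} (hz : ‖z‖ ≤ 1 / 2) :
    ‖Complex.log (1 - z)⁻¹‖ ≤ 2 * ‖z‖ := by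
  have h1 := norm_log_sub_le_sq hz
  have h2 : ‖Complex.log (1 - z)⁻¹‖ ≤ ‖Complex.log (1 - z)⁻¹ - z‖ + ‖z‖ := by
    simpa using norm_add_le (Complex.log (1 - z)⁻¹ - z) z
  have h3 : ‖z‖ ^ 2 ≤ ‖z‖ := by
    have := norm_nonneg z
    nlinarith
  linarith

lemma summable_log (h : NormData N) (ha : ∀ i, ‖a i‖ ≤ 1) {s : ℝ} (hs : 1 < s) :
    Summable (fun i => Complex.log (1 - term N a s i)⁻¹) := by
  refine Summable.of_norm_bounded ((h.summable s hs).mul_left 2) fun i => ?_
  calc ‖Complex.log (1 - term N a s i)⁻¹‖ ≤ 2 * ‖term N a s i‖ :=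
        norm_log_le (norm_term_le_half h ha hs.le i)
    _ ≤ 2 * N i ^ (-s) := by
        gcongr
        exact norm_term_le h ha s i

/-- The constant `∑' i, N i ^ (-2)`. -/
def sqConst (N : ι → ℝ) : ℝ := ∑' i, N i ^ (-(2:ℝ))

lemma sqConst_nonneg (h : NormData N) : 0 ≤ sqConst N :=
  tsum_nonneg fun i => Real.rpow_nonneg (h.pos i).le _

/-- `logEuler` and `primeSum` differ by a bounded amount, uniformly in `s > 1`. -/
lemma norm_logEuler_sub_primeSum_le (h : NormData N) (ha : ∀ i, ‖a i‖ ≤ 1) {s : ℝ}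
    (hs : 1 < s) : ‖logEuler N a s - primeSum N a s‖ ≤ sqConst N := by
  unfold logEuler primeSum sqConst
  rw [← (summable_log h ha hs).tsum_sub (summable_term h ha hs)]
  have hbound : ∀ i, ‖Complex.log (1 - term N a s i)⁻¹ - term N a s i‖ ≤ N i ^ (-(2:ℝ)) := by
    intro i
    have h1 := norm_log_sub_le_sq (norm_term_le_half h ha hs.le i)
    have h2 : ‖term N a s i‖ ≤ N i ^ (-(1:ℝ)) :=
      (norm_term_le h ha s i).trans
        (Real.rpow_le_rpow_of_exponent_le (by linarith [h.two_le i]) (by linarith))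
    have h3 : (N i ^ (-(1:ℝ))) ^ 2 = N i ^ (-(2:ℝ)) := by
      rw [← Real.rpow_natCast, ← Real.rpow_mul (h.pos i).le]
      norm_num
    calc ‖Complex.log (1 - term N a s i)⁻¹ - term N a s i‖ ≤ ‖term N a s i‖ ^ 2 := h1
      _ ≤ (N i ^ (-(1:ℝ))) ^ 2 := by gcongr
      _ = N i ^ (-(2:ℝ)) := h3
  have hsum2 : Summable fun i => N i ^ (-(2:ℝ)) := h.summable 2 (by norm_num)
  exact tsum_of_norm_bounded hsum2.hasSum hbound

lemma one_sub_term_ne_zero (h : NormData N) (ha : ∀ i, ‖a i‖ ≤ 1) {s : ℝ} (hs : 1 ≤ s)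
    (i : ι) : 1 - term N a s i ≠ 0 := by
  intro h0
  have h1 : term N a s i = 1 := by
    rw [sub_eq_zero] at h0
    exact h0.symm
  have h2 := norm_term_le_half h ha hs i
  rw [h1, norm_one] at h2
  norm_num at h2

/-- `exp (logEuler) = eulerProd`. -/
lemma exp_logEuler (h : NormData N) (ha : ∀ i, ‖a i‖ ≤ 1) {s : ℝ} (hs : 1 < s) :
    Complex.exp (logEuler N a s) = eulerProd N a s := by
  unfold logEuler eulerProd
  exact Complex.cexp_tsum_eq_tprod
    (fun i => inv_ne_zero (one_sub_term_ne_zero h ha hs.le i)) (summable_log h ha hs)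

lemma eulerProd_ne_zero (h : NormData N) (ha : ∀ i, ‖a i‖ ≤ 1) {s : ℝ} (hs : 1 < s) :
    eulerProd N a s ≠ 0 := by
  rw [← exp_logEuler h ha hs]
  exact Complex.exp_ne_zero _

/-! ### Continuity in `s` -/

lemma continuous_term (h : NormData N) (i : ι) : Continuous (fun s : ℝ => term N a s i) := by
  unfold term
  refine continuous_const.mul (Complex.continuous_ofReal.comp ?_)
  exact (Real.continuous_const_rpow (h.pos i).ne').comp continuous_neg

lemma mem_slitPlane_of_norm_le_half {z : ℂ} (hz : ‖z‖ ≤ 1 / 2) :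
    (1 - z)⁻¹ ∈ Complex.slitPlane := by
  have h1 : ‖-z‖ < 1 := by rw [norm_neg]; exact lt_of_le_of_lt hz (by norm_num)
  have h2 : 1 - z ∈ Complex.slitPlane := by
    have := Complex.mem_slitPlane_of_norm_lt_one h1
    simpa [sub_eq_add_neg] using this
  rw [Complex.mem_slitPlane_iff_arg] at h2 ⊢
  refine ⟨?_, inv_ne_zero h2.2⟩
  rw [Complex.arg_inv]
  split_ifs with h3
  · exact absurd h3 h2.1
  · intro h4
    have h5 := Complex.neg_pi_lt_arg (1 - z)
    linarith

lemma continuousOn_logTerm (h : NormData N) (ha : ∀ i, ‖a i‖ ≤ 1) (i : ι) :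
    ContinuousOn (fun s : ℝ => Complex.log (1 - term N a s i)⁻¹) (Set.Ici 1) := by
  refine ContinuousOn.clog ?_ fun s hs => mem_slitPlane_of_norm_le_half (norm_term_le_half h ha hs i)
  refine ContinuousOn.inv₀ ?_ fun s hs => one_sub_term_ne_zero h ha hs i
  exact (continuous_const.sub (continuous_term h i)).continuousOn

lemma continuousOn_logEuler_Ici (h : NormData N) (ha : ∀ i, ‖a i‖ ≤ 1) {t : ℝ} (ht : 1 < t) :
    ContinuousOn (logEuler N a) (Set.Ici t) := by
  unfold logEuler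
  refine continuousOn_tsum (u := fun i => 2 * N i ^ (-t))
    (fun i => (continuousOn_logTerm h ha i).mono (Set.Ici_subset_Ici.mpr ht.le))
    ((h.summable t ht).mul_left 2) fun i s hs => ?_
  have hs' : t ≤ s := hs
  calc ‖Complex.log (1 - term N a s i)⁻¹‖ ≤ 2 * ‖term N a s i‖ :=
        norm_log_le (norm_term_le_half h ha (ht.le.trans hs') i)
    _ ≤ 2 * N i ^ (-s) := by
        gcongr
        exact norm_term_le h ha s i
    _ ≤ 2 * N i ^ (-t) := by
        gcongr
        · linarith [h.two_le i]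

lemma continuousOn_logEuler (h : NormData N) (ha : ∀ i, ‖a i‖ ≤ 1) :
    ContinuousOn (logEuler N a) (Set.Ioi 1) := by
  intro s hs
  have hs' : (1:ℝ) < s := hs
  have ht : 1 < (1 + s) / 2 := by linarith
  have hmem : Set.Ici ((1 + s) / 2) ∈ 𝓝 s := Ici_mem_nhds (by linarith)
  exact ((continuousOn_logEuler_Ici h ha ht).continuousAt hmem).continuousWithinAt

lemma continuousOn_eulerProd (h : NormData N) (ha : ∀ i, ‖a i‖ ≤ 1) :
    ContinuousOn (eulerProd N a) (Set.Ioi 1) := by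
  have h1 : ContinuousOn (fun s => Complex.exp (logEuler N a s)) (Set.Ioi 1) :=
    Complex.continuous_exp.comp_continuousOn (continuousOn_logEuler h ha)
  exact h1.congr fun s hs => (exp_logEuler h ha hs).symm

/-! ### Boundedness of the logarithm from a nonzero limit of the Euler product -/

/-- A continuous real function on an interval all of whose values are integer multiples of
`2 * π` is constant. -/
lemma eq_of_continuousOn_of_forall_int {g : ℝ → ℝ} {x y : ℝ}
    (hg : ContinuousOn g (Set.uIcc x y)) (hint : ∀ t ∈ Set.uIcc x y, ∃ n : ℤ, g t = n * (2 * Real.pi))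
    : g x = g y := by
  by_contra hne
  obtain ⟨m, hm⟩ := hint x Set.left_mem_uIcc
  obtain ⟨n, hn⟩ := hint y Set.right_mem_uIcc
  have hmn : m ≠ n := by
    rintro rfl
    exact hne (hm.trans hn.symm)
  have hpi := Real.pi_pos
  -- the value `(m + n) * π + π`-ish: take the midpoint shifted so that it is not a multiple
  -- of `2π`; we use `v = (2 * min m n + 1) * π`.
  set k : ℤ := min m n with hk
  have hk1 : k + 1 ≤ max m n := by
    rcases lt_or_gt_of_ne hmn with hlt | hgt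
    · rw [hk, min_eq_left hlt.le, max_eq_right hlt.le]; omega
    · rw [hk, min_eq_right hgt.le, max_eq_left hgt.le]; omega
  have hv : ((2 * k + 1 : ℤ) : ℝ) * Real.pi ∈ Set.uIcc (g x) (g y) := by
    rw [Set.mem_uIcc]
    have hkR : ((k : ℤ) : ℝ) + 1 ≤ ((max m n : ℤ) : ℝ) := by exact_mod_cast hk1
    rcases lt_or_gt_of_ne hmn with hlt | hgt
    · left
      have hkm : k = m := by rw [hk, min_eq_left hlt.le]
      have hmx : max m n = n := max_eq_right hlt.le
      rw [hm, hn]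
      rw [hmx] at hkR
      rw [hkm] at hkR ⊢
      push_cast
      constructor <;> nlinarith
    · right
      have hkm : k = n := by rw [hk, min_eq_right hgt.le]
      have hmx : max m n = m := max_eq_left hgt.le
      rw [hm, hn]
      rw [hmx] at hkR
      rw [hkm] at hkR ⊢
      push_cast
      constructor <;> nlinarith
  obtain ⟨t, ht, hgt⟩ := intermediate_value_uIcc hg hv
  obtain ⟨j, hj⟩ := hint t ht
  rw [hj] at hgt
  have h2 : ((j : ℝ) * 2) = ((2 * k + 1 : ℤ) : ℝ) := by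
    have := hpi.ne'
    have h3 : ((j : ℝ) * 2) * Real.pi = ((2 * k + 1 : ℤ) : ℝ) * Real.pi := by
      rw [← hgt]; ring
    exact mul_right_cancel₀ this h3
  have h4 : (j * 2 : ℤ) = 2 * k + 1 := by exact_mod_cast h2
  omega

/-- If the Euler product has a nonzero limit at `1⁺`, then `logEuler` is bounded on `(1, 2]`. -/
theorem logEuler_bounded_of_tendsto (h : NormData N) (ha : ∀ i, ‖a i‖ ≤ 1) {l : ℂ} (hl : l ≠ 0)
    (hlim : Tendsto (eulerProd N a) (𝓝[>] 1) (𝓝 l)) :
    ∃ B : ℝ, ∀ s : ℝ, 1 < s → s ≤ 2 → ‖logEuler N a s‖ ≤ B := by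
  -- Step 1: near `1`, the quotient `L / l` is within `1/2` of `1`.
  have h0 : Tendsto (fun s => eulerProd N a s / l - 1) (𝓝[>] 1) (𝓝 0) := by
    have := (hlim.div_const l).sub_const 1
    simpa [div_self hl] using this
  have hn : Tendsto (fun s => ‖eulerProd N a s / l - 1‖) (𝓝[>] 1) (𝓝 0) := by
    simpa using h0.norm
  have h1 : ∀ᶠ s in 𝓝[>] (1:ℝ), ‖eulerProd N a s / l - 1‖ < 1 / 2 :=
    hn.eventually_lt_const (by norm_num)
  obtain ⟨u₀, hu₀, hsub⟩ := mem_nhdsGT_iff_exists_Ioc_subset.mp h1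
  have hu₀' : (1:ℝ) < u₀ := hu₀
  set u : ℝ := min u₀ 2 with hu
  have hu1 : 1 < u := lt_min hu₀' (by norm_num)
  have hu2 : u ≤ 2 := min_le_right _ _
  have hclose : ∀ s, 1 < s → s ≤ u → ‖eulerProd N a s / l - 1‖ < 1 / 2 := fun s hs1 hs2 =>
    hsub ⟨hs1, hs2.trans (min_le_left _ _)⟩
  -- Step 2: the auxiliary function `w`.
  set w : ℝ → ℂ := fun s => logEuler N a s - Complex.log (eulerProd N a s / l) with hw
  have hslit : ∀ s, 1 < s → s ≤ u → eulerProd N a s / l ∈ Complex.slitPlane := by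
    intro s hs1 hs2
    have h2 : ‖eulerProd N a s / l - 1‖ < 1 := (hclose s hs1 hs2).trans (by norm_num)
    have := Complex.mem_slitPlane_of_norm_lt_one h2
    simpa using this
  have hwcont : ContinuousOn w (Set.Ioc 1 u) := by
    refine ((continuousOn_logEuler h ha).mono Set.Ioc_subset_Ioi_self).sub ?_
    refine ContinuousOn.clog ?_ fun s hs => hslit s hs.1 hs.2
    exact ((continuousOn_eulerProd h ha).mono Set.Ioc_subset_Ioi_self).div_const l
  have hwexp : ∀ s, 1 < s → s ≤ u → Complex.exp (w s) = l := by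
    intro s hs1 hs2
    have hne : eulerProd N a s / l ≠ 0 := div_ne_zero (eulerProd_ne_zero h ha hs1) hl
    rw [hw]
    simp only
    rw [Complex.exp_sub, exp_logEuler h ha hs1, Complex.exp_log hne]
    have hL := eulerProd_ne_zero h ha hs1
    field_simp
  -- Step 3: `w` is constant on `(1, u]`.
  have hwconst : ∀ s, 1 < s → s ≤ u → w s = w u := by
    intro s hs1 hs2
    have hdiff : ∀ t ∈ Set.uIcc s u, ∃ n : ℤ, w t - w u = n * (2 * Real.pi * Complex.I) := by
      intro t ht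
      rw [Set.uIcc_of_le hs2] at ht
      have ht1 : 1 < t := hs1.trans_le ht.1
      have : Complex.exp (w t - w u) = 1 := by
        rw [Complex.exp_sub, hwexp t ht1 ht.2, hwexp u hu1 le_rfl, div_self hl]
      exact Complex.exp_eq_one_iff.mp this
    have hg : ContinuousOn (fun t => (w t - w u).im) (Set.uIcc s u) := by
      rw [Set.uIcc_of_le hs2]
      have hsubset : Set.Icc s u ⊆ Set.Ioc 1 u := fun t ht => ⟨hs1.trans_le ht.1, ht.2⟩
      exact Complex.continuous_im.comp_continuousOn ((hwcont.mono hsubset).sub continuousOn_const)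
    have hint : ∀ t ∈ Set.uIcc s u, ∃ n : ℤ, (w t - w u).im = n * (2 * Real.pi) := by
      intro t ht
      obtain ⟨n, hn⟩ := hdiff t ht
      refine ⟨n, ?_⟩
      rw [hn]
      simp
    have him := eq_of_continuousOn_of_forall_int hg hint
    simp only [sub_self, Complex.zero_im] at him
    obtain ⟨n, hn⟩ := hdiff s Set.left_mem_uIcc
    have hn0 : (n : ℝ) * (2 * Real.pi) = 0 := by
      have := congrArg Complex.im hn
      simp at this
      rw [← this]; exact him
    have hn0' : (n : ℝ) = 0 := by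
      rcases mul_eq_zero.mp hn0 with h5 | h5
      · exact h5
      · exact absurd h5 (by positivity)
    have hn0'' : (n : ℂ) = 0 := by exact_mod_cast hn0'
    rw [hn0'', zero_mul] at hn
    exact sub_eq_zero.mp hn
  -- Step 4: the bound on `(1, u]`.
  have hb1 : ∀ s, 1 < s → s ≤ u → ‖logEuler N a s‖ ≤ ‖w u‖ + 1 := by
    intro s hs1 hs2
    have h3 : logEuler N a s = w u + Complex.log (eulerProd N a s / l) := by
      rw [← hwconst s hs1 hs2, hw]
      ring
    have h4 : ‖Complex.log (eulerProd N a s / l)‖ ≤ 1 := by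
      have h5 : eulerProd N a s / l = 1 + (eulerProd N a s / l - 1) := by ring
      rw [h5]
      have h6 := Complex.norm_log_one_add_half_le_self (hclose s hs1 hs2).le
      have h7 := hclose s hs1 hs2
      linarith
    rw [h3]
    exact (norm_add_le _ _).trans (by linarith)
  -- Step 5: the bound on `[u, 2]`.
  obtain ⟨C, hC⟩ := (isCompact_Icc (a := u) (b := 2)).exists_bound_of_continuousOn
    ((continuousOn_logEuler h ha).mono fun t ht => (hu1.trans_le ht.1 : (1:ℝ) < t))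
  refine ⟨max (‖w u‖ + 1) C, fun s hs1 hs2 => ?_⟩
  rcases le_or_gt s u with hsu | hsu
  · exact (hb1 s hs1 hsu).trans (le_max_left _ _)
  · exact (hC s ⟨hsu.le, hs2⟩).trans (le_max_right _ _)

/-- Consequently the prime sum is bounded on `(1, 2]`. -/
theorem primeSum_bounded_of_tendsto (h : NormData N) (ha : ∀ i, ‖a i‖ ≤ 1) {l : ℂ} (hl : l ≠ 0)
    (hlim : Tendsto (eulerProd N a) (𝓝[>] 1) (𝓝 l)) :
    ∃ B : ℝ, ∀ s : ℝ, 1 < s → s ≤ 2 → ‖primeSum N a s‖ ≤ B := by
  obtain ⟨B, hB⟩ := logEuler_bounded_of_tendsto h ha hl hlim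
  refine ⟨B + sqConst N, fun s hs1 hs2 => ?_⟩
  have h1 := norm_logEuler_sub_primeSum_le h ha hs1
  have h2 : ‖primeSum N a s‖ ≤ ‖logEuler N a s‖ + ‖logEuler N a s - primeSum N a s‖ := by
    have := norm_sub_le (logEuler N a s) (logEuler N a s - primeSum N a s)
    simpa using this
  linarith [hB s hs1 hs2]

/-! ### The main statement -/

lemma primeSum_one (s : ℝ) :
    primeSum N (fun _ => (1:ℂ)) s = ((∑' i, N i ^ (-s) : ℝ) : ℂ) := by
  unfold primeSum term
  simp only [one_mul]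
  exact (Complex.ofReal_tsum _).symm

/-- If the Euler product of the trivial character blows up at `1⁺`, so does `∑ N i ^ (-s)`. -/
theorem tendsto_tsum_rpow_atTop (h : NormData N)
    (hp : Tendsto (fun s : ℝ => ‖eulerProd N (fun _ => (1:ℂ)) s‖) (𝓝[>] 1) atTop) :
    Tendsto (fun s : ℝ => ∑' i, N i ^ (-s)) (𝓝[>] 1) atTop := by
  have ha : ∀ i : ι, ‖(fun _ => (1:ℂ)) i‖ ≤ 1 := fun _ => by simp
  have hlog : Tendsto (fun s : ℝ => Real.log ‖eulerProd N (fun _ => (1:ℂ)) s‖ - sqConst N)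
      (𝓝[>] 1) atTop :=
    tendsto_atTop_add_const_right _ _ (Real.tendsto_log_atTop.comp hp)
  refine tendsto_atTop_mono' _ ?_ hlog
  filter_upwards [self_mem_nhdsWithin] with s hs
  have hs1 : (1:ℝ) < s := hs
  have h1 : ‖eulerProd N (fun _ => (1:ℂ)) s‖ = Real.exp (logEuler N (fun _ => (1:ℂ)) s).re := by
    rw [← exp_logEuler h ha hs1, Complex.norm_exp]
  have h2 : (logEuler N (fun _ => (1:ℂ)) s).re ≤ ‖logEuler N (fun _ => (1:ℂ)) s‖ :=
    Complex.re_le_norm _
  have h3 := norm_logEuler_sub_primeSum_le h ha hs1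
  have h4 : ‖logEuler N (fun _ => (1:ℂ)) s‖ ≤
      ‖primeSum N (fun _ => (1:ℂ)) s‖ + ‖logEuler N (fun _ => (1:ℂ)) s - primeSum N (fun _ => (1:ℂ)) s‖ := by
    have := norm_add_le (primeSum N (fun _ => (1:ℂ)) s)
      (logEuler N (fun _ => (1:ℂ)) s - primeSum N (fun _ => (1:ℂ)) s)
    simpa using this
  have h5 : ‖primeSum N (fun _ => (1:ℂ)) s‖ = ∑' i, N i ^ (-s) := by
    rw [primeSum_one s, Complex.norm_real, Real.norm_of_nonneg]
    exact tsum_nonneg fun i => Real.rpow_nonneg (h.pos i).le _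
  rw [h1, Real.log_exp]
  linarith

/-- **Abstract Dirichlet argument.** Let `χ x` (`x : X`, finite) be bounded coefficient functions,
`χ x₀ = 1`, and suppose the indicator of `T` is a linear combination `∑ x, c x * χ x` with
`0 < re (c x₀)`. If the Euler products of all `χ x`, `x ≠ x₀`, have nonzero limits at `1⁺` and
`∑ N i ^ (-s) → ∞`, then `∑_{i ∈ T} N i ^ (-s) → ∞` as `s → 1⁺`. -/
theorem tendsto_tsum_indicator_atTop {X : Type*} [Fintype X] [DecidableEq X]
    (h : NormData N) (χ : X → ι → ℂ) (hχ : ∀ x i, ‖χ x i‖ ≤ 1)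
    (x₀ : X) (hx₀ : ∀ i, χ x₀ i = 1)
    (T : Set ι) (c : X → ℂ) (hc : 0 < (c x₀).re)
    (hind : ∀ i, ((T.indicator (fun _ => (1:ℝ)) i : ℝ) : ℂ) = ∑ x, c x * χ x i)
    (hlim : ∀ x, x ≠ x₀ → ∃ l : ℂ, l ≠ 0 ∧ Tendsto (eulerProd N (χ x)) (𝓝[>] 1) (𝓝 l))
    (hpole : Tendsto (fun s : ℝ => ∑' i, N i ^ (-s)) (𝓝[>] 1) atTop) :
    Tendsto (fun s : ℝ => ∑' i, T.indicator (fun i => N i ^ (-s)) i) (𝓝[>] 1) atTop := by
  classical
  -- bounds for the nontrivial characters
  have hB : ∀ x, x ≠ x₀ → ∃ B : ℝ, ∀ s : ℝ, 1 < s → s ≤ 2 → ‖primeSum N (χ x) s‖ ≤ B := by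
    intro x hx
    obtain ⟨l, hl, hlim'⟩ := hlim x hx
    exact primeSum_bounded_of_tendsto h (hχ x) hl hlim'
  choose! B hB using hB
  set K : ℝ := ∑ x ∈ Finset.univ.erase x₀, ‖c x‖ * B x with hK
  have hlow : Tendsto (fun s : ℝ => (c x₀).re * (∑' i, N i ^ (-s)) - K) (𝓝[>] 1) atTop :=
    tendsto_atTop_add_const_right _ _ (hpole.const_mul_atTop hc)
  refine tendsto_atTop_mono' _ ?_ hlow
  have hev : ∀ᶠ s in 𝓝[>] (1:ℝ), s ≤ 2 := by
    have : Set.Iic (2:ℝ) ∈ 𝓝 (1:ℝ) := Iic_mem_nhds (by norm_num)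
    exact mem_nhdsWithin_of_mem_nhds this
  filter_upwards [self_mem_nhdsWithin, hev] with s hs hs2
  have hs1 : (1:ℝ) < s := hs
  -- the key identity
  have hsumT : Summable fun i => T.indicator (fun i => N i ^ (-s)) i :=
    (h.summable s hs1).indicator T
  have hid : ((∑' i, T.indicator (fun i => N i ^ (-s)) i : ℝ) : ℂ)
      = ∑ x, c x * primeSum N (χ x) s := by
    have h1 : ∀ x, Summable fun i => c x * term N (χ x) s i := fun x =>
      (summable_term h (hχ x) hs1).mul_left (c x)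
    calc ((∑' i, T.indicator (fun i => N i ^ (-s)) i : ℝ) : ℂ)
        = ∑' i, ((T.indicator (fun i => N i ^ (-s)) i : ℝ) : ℂ) := Complex.ofReal_tsum _
      _ = ∑' i, ∑ x, c x * term N (χ x) s i := by
          congr 1
          ext i
          have h2 : T.indicator (fun i => N i ^ (-s)) i
              = T.indicator (fun _ => (1:ℝ)) i * N i ^ (-s) := by
            by_cases hi : i ∈ T <;> simp [hi]
          rw [h2, Complex.ofReal_mul, hind i, Finset.sum_mul]
          refine Finset.sum_congr rfl fun x _ => ?_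
          unfold term
          ring
      _ = ∑ x, ∑' i, c x * term N (χ x) s i :=
          Summable.tsum_finsetSum fun x _ => h1 x
      _ = ∑ x, c x * primeSum N (χ x) s := by
          refine Finset.sum_congr rfl fun x _ => ?_
          unfold primeSum
          rw [tsum_mul_left]
  have hre := congrArg Complex.re hid
  rw [Complex.ofReal_re, Complex.re_sum] at hre
  rw [hre, ← Finset.add_sum_erase Finset.univ _ (Finset.mem_univ x₀)]
  have hx₀' : primeSum N (χ x₀) s = ((∑' i, N i ^ (-s) : ℝ) : ℂ) := by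
    have : χ x₀ = fun _ => (1:ℂ) := funext hx₀
    rw [this, primeSum_one s]
  have hmain : (c x₀ * primeSum N (χ x₀) s).re = (c x₀).re * ∑' i, N i ^ (-s) := by
    rw [hx₀', Complex.re_mul_ofReal]
  have hrest : -K ≤ ∑ x ∈ Finset.univ.erase x₀, (c x * primeSum N (χ x) s).re := by
    rw [hK, ← Finset.sum_neg_distrib]
    refine Finset.sum_le_sum fun x hx => ?_
    have hx' : x ≠ x₀ := (Finset.mem_erase.mp hx).1
    have h1 : ‖c x * primeSum N (χ x) s‖ ≤ ‖c x‖ * B x := by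
      rw [norm_mul]
      exact mul_le_mul_of_nonneg_left (hB x hx' s hs1 hs2) (norm_nonneg _)
    have h2 := Complex.abs_re_le_norm (c x * primeSum N (χ x) s)
    have h3 := neg_abs_le (c x * primeSum N (χ x) s).re
    linarith
  rw [hmain]
  linarith

/-- In the situation of `tendsto_tsum_indicator_atTop`, the set `T` meets the complement of
every finite set. -/
theorem exists_mem_not_mem_of_tendsto (h : NormData N) (T : Set ι)
    (hT : Tendsto (fun s : ℝ => ∑' i, T.indicator (fun i => N i ^ (-s)) i) (𝓝[>] 1) atTop)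
    (S : Finset ι) : ∃ i, i ∈ T ∧ i ∉ S := by
  classical
  by_contra hcon
  push Not at hcon
  have hbound : ∀ s : ℝ, 1 < s → ∑' i, T.indicator (fun i => N i ^ (-s)) i ≤ S.card := by
    intro s hs
    have h1 : ∀ i, T.indicator (fun i => N i ^ (-s)) i ≤ (S : Set ι).indicator (fun _ => (1:ℝ)) i := by
      intro i
      by_cases hi : i ∈ T
      · have hiS : i ∈ (S : Set ι) := hcon i hi
        rw [Set.indicator_of_mem hi, Set.indicator_of_mem hiS]
        exact (h.rpow_le_half hs.le i).trans (by norm_num)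
      · rw [Set.indicator_of_notMem hi]
        exact Set.indicator_nonneg (fun _ _ => zero_le_one) i
    have h2 : Summable fun i => (S : Set ι).indicator (fun _ => (1:ℝ)) i :=
      summable_of_hasFiniteSupport ((S.finite_toSet).subset (by
        intro i hi
        by_contra hiS
        exact hi (Set.indicator_of_notMem hiS _)))
    have h3 : ∑' i, (S : Set ι).indicator (fun _ => (1:ℝ)) i = S.card := by
      rw [tsum_eq_sum (s := S) fun i hi => Set.indicator_of_notMem (by simpa using hi) _]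
      rw [Finset.sum_congr rfl fun i hi =>
        Set.indicator_of_mem (show i ∈ (S : Set ι) from hi) (fun _ => (1:ℝ))]
      simp
    calc ∑' i, T.indicator (fun i => N i ^ (-s)) i
        ≤ ∑' i, (S : Set ι).indicator (fun _ => (1:ℝ)) i :=
          Summable.tsum_le_tsum h1 ((h.summable s hs).indicator T) h2
      _ = S.card := h3
  have hev : ∀ᶠ s in 𝓝[>] (1:ℝ), (S.card : ℝ) + 1 ≤ ∑' i, T.indicator (fun i => N i ^ (-s)) i :=
    hT.eventually_ge_atTop _
  obtain ⟨s, hs1, hs2⟩ := (hev.and self_mem_nhdsWithin).exists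
  have := hbound s hs2
  linarith

/-! ### Auxiliary limit lemmas for the provider of the hypotheses -/

/-- A function with a simple pole at `1` (nonzero residue) blows up in norm at `1⁺`. -/
theorem tendsto_norm_atTop_of_pole {f : ℝ → ℂ} {ρ : ℂ} (hρ : ρ ≠ 0)
    (hf : Tendsto (fun s : ℝ => ((s : ℂ) - 1) * f s) (𝓝[>] 1) (𝓝 ρ)) :
    Tendsto (fun s : ℝ => ‖f s‖) (𝓝[>] 1) atTop := by
  have hpos : 0 < ‖ρ‖ / 2 := by positivity
  have hlt : ‖ρ‖ / 2 < ‖ρ‖ := by
    have : 0 < ‖ρ‖ := norm_pos_iff.mpr hρ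
    linarith
  have h1 : ∀ᶠ s : ℝ in 𝓝[>] (1:ℝ), ‖ρ‖ / 2 < ‖((s : ℂ) - 1) * f s‖ :=
    hf.norm.eventually_const_lt hlt
  have h2 : Tendsto (fun s : ℝ => (s - 1)⁻¹) (𝓝[>] 1) atTop := by
    have h3 : Tendsto (fun s : ℝ => s - 1) (𝓝[>] 1) (𝓝[>] 0) := by
      refine tendsto_nhdsWithin_of_tendsto_nhds_of_eventually_within _ ?_ ?_
      · have : Tendsto (fun s : ℝ => s - 1) (𝓝 1) (𝓝 (1 - 1)) :=
          (continuous_id.sub continuous_const).tendsto 1
        simpa using this.mono_left nhdsWithin_le_nhds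
      · filter_upwards [self_mem_nhdsWithin] with s hs
        have : (1:ℝ) < s := hs
        exact sub_pos.mpr this
    exact tendsto_inv_nhdsGT_zero.comp h3
  have h4 : Tendsto (fun s : ℝ => ‖ρ‖ / 2 * (s - 1)⁻¹) (𝓝[>] 1) atTop :=
    h2.const_mul_atTop hpos
  refine tendsto_atTop_mono' _ ?_ h4
  filter_upwards [h1, self_mem_nhdsWithin] with s hs hs1
  have hs1' : (0:ℝ) < s - 1 := sub_pos.mpr hs1
  have h5 : ‖((s : ℂ) - 1)‖ = s - 1 := by
    have : ((s : ℂ) - 1) = ((s - 1 : ℝ) : ℂ) := by push_cast; ring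
    rw [this, Complex.norm_real, Real.norm_of_nonneg hs1'.le]
  rw [norm_mul, h5] at hs
  rw [← div_eq_mul_inv, div_le_iff₀ hs1']
  linarith [mul_comm (s - 1) ‖f s‖]

/-- If the product of finitely many functions has a simple pole with nonzero residue at `1`, one
factor has a simple pole and the others have limits, then these limits are nonzero. -/
theorem limit_ne_zero_of_prod {X : Type*} [Fintype X] [DecidableEq X] (L : X → ℝ → ℂ) (x₀ : X)
    (l : X → ℂ) (hl : ∀ x, x ≠ x₀ → Tendsto (L x) (𝓝[>] 1) (𝓝 (l x)))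
    {ρ ρ' : ℂ} (hρ' : ρ' ≠ 0)
    (h0 : Tendsto (fun s : ℝ => ((s : ℂ) - 1) * L x₀ s) (𝓝[>] 1) (𝓝 ρ))
    (hprod : Tendsto (fun s : ℝ => ((s : ℂ) - 1) * ∏ x, L x s) (𝓝[>] 1) (𝓝 ρ')) :
    ∀ x, x ≠ x₀ → l x ≠ 0 := by
  have h1 : Tendsto (fun s : ℝ => ∏ x ∈ Finset.univ.erase x₀, L x s) (𝓝[>] 1)
      (𝓝 (∏ x ∈ Finset.univ.erase x₀, l x)) :=
    tendsto_finsetProd _ fun x hx => hl x (Finset.mem_erase.mp hx).1
  have h2 : Tendsto (fun s : ℝ => ((s : ℂ) - 1) * ∏ x, L x s) (𝓝[>] 1)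
      (𝓝 (ρ * ∏ x ∈ Finset.univ.erase x₀, l x)) := by
    refine (h0.mul h1).congr fun s => ?_
    rw [← Finset.mul_prod_erase Finset.univ (fun x => L x s) (Finset.mem_univ x₀)]
    ring
  have h3 : ρ' = ρ * ∏ x ∈ Finset.univ.erase x₀, l x := tendsto_nhds_unique hprod h2
  intro x hx hzero
  apply hρ'
  rw [h3, Finset.prod_eq_zero (Finset.mem_erase.mpr ⟨hx, Finset.mem_univ x⟩) hzero, mul_zero]

end

end Fermat.Agent.Lib.Cheb.H941
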